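/-
S18 project, [CUSP-LITE] (C-BASE), helper97: generic field theory used by `CuspBase97/Main.lean`.

* `eval_eq_zero_of_mul` : a divisor of corank `≤ 1` of a polynomial vanishes at every root of the
  polynomial except possibly one;
* `exists_algHom_sup_simple` : extension of the inclusion of an intermediate field `E` to
  `E(x)`, sending `x` to a prescribed root of `minpoly E x`.
-/
import Mathlib

set_option autoImplicit false

open Polynomial IntermediateField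

namespace Fermat.Agent.S18.CuspBase97

section Poly

variable {L : Type*} [Field L]

/-- If `P = m * c` with `deg c ≤ 1`, `P t = P r = 0`, `r ≠ t` and `m t ≠ 0`, then `m r = 0`. -/
theorem eval_eq_zero_of_mul {P m c : L[X]} (hP : P = m * c) (hc0 : c ≠ 0)
    (hc : c.natDegree ≤ 1) {t r : L} (hrt : r ≠ t) (hPt : P.eval t = 0) (hPr : P.eval r = 0)
    (hmt : m.eval t ≠ 0) : m.eval r = 0 := by
  by_contra hmr
  have hct : c.eval t = 0 := by
    rw [hP, eval_mul] at hPt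
    exact (mul_eq_zero.mp hPt).resolve_left hmt
  have hcr : c.eval r = 0 := by
    rw [hP, eval_mul] at hPr
    exact (mul_eq_zero.mp hPr).resolve_left hmr
  have h1 : (X - C t) ∣ c := dvd_iff_isRoot.mpr hct
  have h2 : (X - C r) ∣ c := dvd_iff_isRoot.mpr hcr
  have hcop : IsCoprime (X - C t : L[X]) (X - C r) :=
    isCoprime_X_sub_C_of_isUnit_sub (by
      rw [isUnit_iff_ne_zero]; exact sub_ne_zero.mpr hrt.symm)
  have h3 : (X - C t) * (X - C r) ∣ c := hcop.mul_dvd h1 h2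
  have h4 := natDegree_le_of_dvd h3 hc0
  rw [natDegree_mul (X_sub_C_ne_zero t) (X_sub_C_ne_zero r), natDegree_X_sub_C,
    natDegree_X_sub_C] at h4
  omega

end Poly

section Ext

variable {k L : Type*} [Field k] [Field L] [Algebra k L]

theorem mem_adjoin_of_mem_sup (E : IntermediateField k L) (x : L) (y : L) (hy : y ∈ E ⊔ k⟮x⟯) :
    y ∈ E⟮x⟯ := by
  have hsup : restrictScalars k (E⟮x⟯) = E ⊔ k⟮x⟯ := restrictScalars_adjoin_eq_sup k E {x}
  rw [← hsup] at hy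
  exact hy

/-- the ring hom `E ⊔ k(x) → E(x)` (the identity on elements) -/
noncomputable def toAdj (E : IntermediateField k L) (x : L) : ↥(E ⊔ k⟮x⟯) →+* ↥(E⟮x⟯) where
  toFun y := ⟨y.1, mem_adjoin_of_mem_sup E x y.1 y.2⟩
  map_one' := rfl
  map_mul' _ _ := rfl
  map_zero' := rfl
  map_add' _ _ := rfl

theorem toAdj_apply (E : IntermediateField k L) (x : L) (y : ↥(E ⊔ k⟮x⟯)) :
    toAdj E x y = ⟨y.1, mem_adjoin_of_mem_sup E x y.1 y.2⟩ := rfl

theorem tau_of_mem (E : IntermediateField k L) {x : L} (τ : E⟮x⟯ →ₐ[E] L) (y : L) (hy : y ∈ E)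
    (hy' : y ∈ E⟮x⟯) : τ ⟨y, hy'⟩ = y := by
  have h1 : (⟨y, hy'⟩ : E⟮x⟯) = algebraMap E E⟮x⟯ ⟨y, hy⟩ := rfl
  rw [h1, τ.commutes]
  rfl

/-- an `E`-embedding of `E(x)` as a `k`-embedding of `E ⊔ k(x)` -/
noncomputable def sigmaOf (E : IntermediateField k L) {x : L} (τ : E⟮x⟯ →ₐ[E] L) :
    ↥(E ⊔ k⟮x⟯) →ₐ[k] L where
  toRingHom := (τ : E⟮x⟯ →+* L).comp (toAdj E x)
  commutes' a := by
    show τ (toAdj E x (algebraMap k ↥(E ⊔ k⟮x⟯) a)) = algebraMap k L a
    rw [toAdj_apply]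
    exact tau_of_mem E τ (algebraMap k L a) (IntermediateField.algebraMap_mem E a) _

theorem sigmaOf_apply (E : IntermediateField k L) {x : L} (τ : E⟮x⟯ →ₐ[E] L)
    (y : ↥(E ⊔ k⟮x⟯)) :
    sigmaOf E τ y = τ ⟨y.1, mem_adjoin_of_mem_sup E x y.1 y.2⟩ := rfl

/-- Extension of the inclusion `E ⊆ L` to `E(x)`, sending `x` to a root `r` of `minpoly E x`. -/
theorem exists_algHom_sup_simple (E : IntermediateField k L) {x : L} (hx : IsIntegral E x)
    {r : L} (hr : aeval r (minpoly E x) = 0) :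
    ∃ σ : ↥(E ⊔ k⟮x⟯) →ₐ[k] L,
      (∀ y : ↥(E ⊔ k⟮x⟯), y.1 ∈ E → σ y = y.1) ∧
      (∀ y : ↥(E ⊔ k⟮x⟯), y.1 = x → σ y = r) := by
  have hmem : r ∈ (minpoly E x).aroots L := by
    rw [mem_aroots]
    exact ⟨minpoly.ne_zero hx, hr⟩
  let τ : E⟮x⟯ →ₐ[E] L := (algHomAdjoinIntegralEquiv E hx).symm ⟨r, hmem⟩
  have hτ : τ (AdjoinSimple.gen E x) = r :=
    algHomAdjoinIntegralEquiv_symm_apply_gen E hx ⟨r, hmem⟩
  refine ⟨sigmaOf E τ, fun y hy => ?_, fun y hy => ?_⟩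
  · rw [sigmaOf_apply]
    exact tau_of_mem E τ y.1 hy _
  · rw [sigmaOf_apply, ← hτ]
    congr 1
    exact Subtype.ext hy

end Ext

end Fermat.Agent.S18.CuspBase97
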