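/-
S18 project, [CUSP-LITE] (C-BASE), helper97 (second seat next to helper3).

`k` algebraically closed, `p` prime with `(p : k) ≠ 0`, `t = jqModC k`, `t_d = t(q^d)`,
`F_p = k(t, t_p)`, `F_{p²} = k(t, t_p, t_{p²})` (the S28 models `LL k p`, `LL k (p * p)`).

* (CB1) `natDegree_minpoly_ge` : `p ≤ deg (minpoly F_p t_{p²})` (S28 KEYL at level `p²` + P1 at `p`);
* (CB2) `exists_embedding` : for every root `r ∈ {t(q^{p²})} ∪ {t(ζ^b q) : 1 ≤ b < p}` of
  `Φ_p(X, t_p)/(X - t)` a `k`-embedding `σ_r : F_{p²} → k((q))` which is the identity on `F_p` and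
  sends `t_{p²}` to `r`;
* (CB3) `order_sep_nonneg`, `order_sep_neg_*` : the element `t_{p²} - ζ^{-b} t` has `q`-order `≥ 0`
  under `σ_{t(ζ^b q)}` and `< 0` under all the other `σ_r`.
-/
import Fermat.Agent.S28.KeyLowerMain
import Fermat.Agent.S28.KeyUpper
import Fermat.Agent.S18.CuspBase97.Alg

set_option autoImplicit false
set_option linter.unusedSectionVars false
set_option linter.style.haveILetI false

noncomputable section

namespace Fermat.Agent.S18.CuspBase97

open HahnSeries ModularCurve IntermediateField Polynomial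
open Fermat.Agent.S28 Fermat.Agent.S28.KEY0

/-! ### Roots data over `k` -/

section Roots

variable {k : Type} [Field k] (p : ℕ) [NeZero p] (ζ : kˣ)

/-- the root `t(ζ^b q)` of `Φ_p(X, t_p)` -/
def rho (b : ℕ) : LaurentSeries k := twist (ζ ^ b) (jqModC k)

/-- its leading coefficient `ζ^(-b)` -/
def cc (b : ℕ) : k := (((ζ ^ b) ^ (-1 : ℤ) : kˣ) : k)

theorem leadsAt_rho (b : ℕ) : LeadsAt (rho ζ b) 1 (cc ζ b) := leadsAt_twist_jqModC _

theorem rho_zero : rho ζ 0 = jqModC k := by rw [rho, pow_zero, twist_one]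

theorem cc_zero : cc ζ 0 = 1 := by simp [cc]

theorem cc_ne_zero (b : ℕ) : cc ζ b ≠ 0 := Units.ne_zero _

theorem cc_inj (hζ : IsPrimitiveRoot ζ p) {b b' : ℕ} (hb : b < p) (hb' : b' < p)
    (h : cc ζ b = cc ζ b') : b = b' := by
  have h1 : ((ζ ^ b) ^ (-1 : ℤ) : kˣ) = (ζ ^ b') ^ (-1 : ℤ) := Units.ext h
  rw [zpow_neg_one, zpow_neg_one, inv_inj] at h1
  exact hζ.pow_inj hb hb' h1

/-- The roots data of S28/KEY0 over `k` (instead of `ℂ`). -/
def rootsDataOf (D : ModEqData p) (hζ : IsPrimitiveRoot ζ p)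
    (hcyc : (Polynomial.cyclotomic p k).IsRoot (ζ : k)) : RootsData k p where
  Φ := D.Phi
  monic := D.monic
  natDegree_eq := D.natDegree_eq
  ρ := rho ζ
  c := cc ζ
  roots := by
    have h := D.roots k ζ hcyc
    rw [tq_eq, tq_eq]
    exact h
  ρ_zero := rho_zero ζ
  leads b _ := leadsAt_rho ζ b
  c_ne_zero b _ := cc_ne_zero ζ b
  c_ne_one b hb hb0 := by
    intro h
    have h1 : cc ζ b = cc ζ 0 := by rw [h, cc_zero]
    exact hb0 (cc_inj p ζ hζ hb (Nat.pos_of_ne_zero (NeZero.ne p)) h1)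

end Roots

/-! ### The fields `F_p ⊆ F_{p²}` -/

section Fields

variable (k : Type) [Field k] {p : ℕ} (hp : p.Prime)

include hp in
theorem LL_prime : LL k p = k⟮jqModC k⟯ ⊔ k⟮tq k p⟯ := by
  unfold LL
  rw [← adjoin_union]
  congr 1
  ext x
  simp only [Set.mem_ofPred_eq, Set.union_singleton, Set.mem_insert_iff, Set.mem_singleton_iff]
  constructor
  · rintro ⟨d, hd, rfl⟩
    rcases (Nat.dvd_prime hp).mp hd with rfl | rfl
    · right; exact tq_one k
    · left; rfl
  · rintro (rfl | rfl)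
    · exact ⟨p, dvd_rfl, rfl⟩
    · exact ⟨1, one_dvd p, (tq_one k).symm⟩

include hp in
theorem LL_prime_sq : LL k (p * p) = LL k p ⊔ k⟮tq k (p * p)⟯ := by
  unfold LL
  rw [← adjoin_union]
  congr 1
  ext x
  simp only [Set.mem_ofPred_eq, Set.union_singleton, Set.mem_insert_iff]
  constructor
  · rintro ⟨d, hd, rfl⟩
    rw [← pow_two] at hd
    obtain ⟨i, hi, rfl⟩ := (Nat.dvd_prime_pow hp).mp hd
    interval_cases i
    · right; exact ⟨1, one_dvd p, by simp⟩
    · right; exact ⟨p, dvd_rfl, by simp⟩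
    · left; rw [pow_two]
  · rintro (rfl | ⟨d, hd, rfl⟩)
    · exact ⟨p * p, dvd_rfl, rfl⟩
    · exact ⟨d, hd.trans (dvd_mul_right p p), rfl⟩

theorem Kt_le_LL (N : ℕ) : k⟮jqModC k⟯ ≤ LL k N := by
  rw [adjoin_simple_le_iff, ← tq_one]
  exact tq_mem_LL (one_dvd N)

theorem LL_le_LL_sq (p : ℕ) : LL k p ≤ LL k (p * p) := by
  unfold LL
  apply adjoin.mono
  rintro x ⟨d, hd, rfl⟩
  exact ⟨d, hd.trans (dvd_mul_right p p), rfl⟩

include hp in
theorem fieldTTp_eq [NeZero p] : fieldTTp k p = LL k p := by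
  rw [LL_prime k hp, fieldTTp, tq_eq, ← adjoin_union]
  rfl

end Fields

/-! ### (CB1) the degree of `t_{p²}` over `F_p` -/

section Degree

variable (k : Type) [Field k] [IsAlgClosed k] {p : ℕ} (hp : p.Prime) (hpk : (p : k) ≠ 0)
  (hD : ModEqStatement)

include hp in
theorem dedekindPsi_prime_sq : dedekindPsi (p * p) = p * (p + 1) := by
  rw [Psi.dedekindPsi_mul_of_dvd hp hp.ne_zero dvd_rfl]
  have h1 : dedekindPsi (p * 1) = (p + 1) * dedekindPsi 1 :=
    Psi.dedekindPsi_mul_of_not_dvd hp one_ne_zero (by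
      intro h; exact hp.one_lt.ne' (Nat.dvd_one.mp h))
  rw [mul_one, dedekindPsi_one, mul_one] at h1
  rw [h1]

include hp hpk hD in
/-- `[F_p : k(t)] = p + 1` (S28, package P1). -/
theorem relrank_LL_prime : (k⟮jqModC k⟯).relrank (LL k p) = ((p + 1 : ℕ) : Cardinal) := by
  haveI : NeZero p := ⟨hp.ne_zero⟩
  obtain ⟨-, -, -, -, h1, -⟩ := P1.p1Statement p hp.two_le (hD p hp).some k hpk
  rw [← fieldTTp_eq k hp]
  exact h1

include hp hpk hD in
/-- `p (p + 1) ≤ [F_{p²} : k(t)]` (S28, package KEYL). -/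
theorem le_relrank_LL_prime_sq :
    ((p * (p + 1) : ℕ) : Cardinal) ≤ (k⟮jqModC k⟯).relrank (LL k (p * p)) := by
  haveI : NeZero (p * p) := ⟨Nat.mul_ne_zero hp.ne_zero hp.ne_zero⟩
  have hNk : ((p * p : ℕ) : k) ≠ 0 := by
    push_cast
    exact mul_ne_zero hpk hpk
  have h := KeyLower.keyLower_algClosed hD k (p * p) hNk
  rw [dedekindPsi_prime_sq hp, ← LL_eq] at h
  exact h

include hp hpk hD in
/-- `t_{p²}` is integral over `F_p`. -/
theorem isIntegral_tpp : IsIntegral (LL k p) (tq k (p * p)) := by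
  haveI : NeZero p := ⟨hp.ne_zero⟩
  obtain ⟨ζ, hζ, hcyc⟩ := KeyLower.exists_zeta k p hp.pos hpk
  let R := rootsDataOf p ζ (hD p hp).some hζ hcyc
  have htp : tq k p ∈ LL k p := tq_mem_LL dvd_rfl
  refine ⟨PhiE (LL k p) R.Φ ⟨tq k p, htp⟩, PhiE_monic _ R.monic _, ?_⟩
  rw [← Polynomial.aeval_def, aeval_PhiE]
  exact R.eval_tq_sq (RingHom.id k)

include hp hpk hD in
/-- **(CB1)** `p ≤ deg (minpoly F_p t_{p²})`. -/
theorem natDegree_minpoly_ge : p ≤ (minpoly (LL k p) (tq k (p * p))).natDegree := by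
  have hint := isIntegral_tpp k hp hpk hD
  have h1 := relrank_mul_relrank (Kt_le_LL k p) (LL_le_LL_sq k p)
  rw [relrank_LL_prime k hp hpk hD, LL_prime_sq k hp,
    KeyLower.relrank_sup_adjoin_simple (LL k p) hint] at h1
  have h2 := le_relrank_LL_prime_sq k hp hpk hD
  rw [LL_prime_sq k hp, ← h1] at h2
  have h3 : p * (p + 1) ≤ (p + 1) * (minpoly (LL k p) (tq k (p * p))).natDegree := by
    exact_mod_cast h2
  nlinarith

end Degree

/-! ### (CB2) the conjugates of `t_{p²}` over `F_p` -/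

section Conj

variable (k : Type) [Field k] [IsAlgClosed k] {p : ℕ} (hp : p.Prime) (hpk : (p : k) ≠ 0)
  (hD : ModEqStatement) (ζ : kˣ) (hζ : IsPrimitiveRoot ζ p)

/-- the roots of `Φ_p(X, t_p)` other than `t`: `t(q^{p²})` and `t(ζ^b q)`, `1 ≤ b < p`. -/
def IsOtherRoot (p : ℕ) (ζ : kˣ) (r : LaurentSeries k) : Prop :=
  r = tq k (p * p) ∨ ∃ b, 0 < b ∧ b < p ∧ r = rho ζ b

include hp in
theorem tpp_ne_t : tq k (p * p) ≠ jqModC k :=
  (leadsAt_tq k (p * p) (Nat.mul_ne_zero hp.ne_zero hp.ne_zero)).ne (leadsAt_jqModC k)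
    one_ne_zero one_ne_zero (Or.inl (by nlinarith [hp.two_le]))

include hζ in
theorem rho_ne_t {b : ℕ} (hb0 : 0 < b) (hb : b < p) : rho ζ b ≠ jqModC k := by
  refine (leadsAt_rho ζ b).ne (leadsAt_jqModC k) (cc_ne_zero ζ b) one_ne_zero (Or.inr ?_)
  intro h
  haveI : NeZero p := ⟨by omega⟩
  rw [← cc_zero ζ] at h
  exact hb0.ne' (cc_inj p ζ hζ hb (lt_trans hb0 hb) h)

include hp hζ in
theorem IsOtherRoot.ne_t {r : LaurentSeries k} (hr : IsOtherRoot k p ζ r) : r ≠ jqModC k := by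
  rcases hr with rfl | ⟨b, hb0, hb, rfl⟩
  · exact tpp_ne_t k hp
  · exact rho_ne_t k ζ hζ hb0 hb

include hp hpk hD hζ in
/-- Every root of `Φ_p(X, t_p)` other than `t` is a conjugate of `t_{p²}` over `F_p`. -/
theorem aeval_minpoly_eq_zero {r : LaurentSeries k} (hr : IsOtherRoot k p ζ r) :
    aeval r (minpoly (LL k p) (tq k (p * p))) = 0 := by
  haveI : NeZero p := ⟨hp.ne_zero⟩
  have hcyc : (Polynomial.cyclotomic p k).IsRoot (ζ : k) :=
    (IsPrimitiveRoot.coe_units_iff.mpr hζ).isRoot_cyclotomic hp.pos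
  set R := rootsDataOf p ζ (hD p hp).some hζ hcyc with hR
  have hint := isIntegral_tpp k hp hpk hD
  have hdeg := natDegree_minpoly_ge k hp hpk hD
  set E := LL k p with hE
  set m := minpoly E (tq k (p * p)) with hm
  have htp : tq k p ∈ E := tq_mem_LL dvd_rfl
  have ht : jqModC k ∈ E := Kt_le_LL k p (mem_adjoin_simple_self k _)
  have hroot : aeval (tq k (p * p)) (PhiE E R.Φ ⟨tq k p, htp⟩) = 0 := by
    rw [aeval_PhiE]
    exact R.eval_tq_sq (RingHom.id k)
  obtain ⟨c0, hc0⟩ := minpoly.dvd E (tq k (p * p)) hroot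
  have hP : PhiAt R.Φ (tq k p) = m.map (algebraMap E (LaurentSeries k)) *
      c0.map (algebraMap E (LaurentSeries k)) := by
    rw [← Polynomial.map_mul, ← hc0, map_PhiE]
  have hPdeg : (PhiAt R.Φ (tq k p)).natDegree = p + 1 := by
    rw [PhiAt_natDegree R.monic, R.natDegree_eq]
  have hPmonic : (PhiAt R.Φ (tq k p)).Monic := PhiAt_monic R.monic _
  have hm0 : m.map (algebraMap E (LaurentSeries k)) ≠ 0 := by
    intro h
    rw [h, zero_mul] at hP
    exact hPmonic.ne_zero hP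
  have hc00 : c0.map (algebraMap E (LaurentSeries k)) ≠ 0 := by
    intro h
    rw [h, mul_zero] at hP
    exact hPmonic.ne_zero hP
  have hcdeg : (c0.map (algebraMap E (LaurentSeries k))).natDegree ≤ 1 := by
    have h1 := congrArg Polynomial.natDegree hP
    rw [hPdeg, Polynomial.natDegree_mul hm0 hc00, Polynomial.natDegree_map] at h1
    omega
  -- `t` is a root of `Φ_p(X, t_p)` but not of the minimal polynomial
  have hPt : (PhiAt R.Φ (tq k p)).eval (jqModC k) = 0 := R.eval_jq (RingHom.id k) hp.ne_zero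
  have hmt : (m.map (algebraMap E (LaurentSeries k))).eval (jqModC k) ≠ 0 := by
    intro h0
    have h1 : m.IsRoot (⟨jqModC k, ht⟩ : E) := by
      rw [Polynomial.IsRoot.def]
      apply (algebraMap E (LaurentSeries k)).injective
      rw [map_zero, ← Polynomial.eval₂_hom, ← Polynomial.eval_map]
      exact h0
    have h2 := Polynomial.degree_eq_one_of_irreducible_of_root (minpoly.irreducible hint) h1
    have h3 : m.natDegree = 1 := Polynomial.natDegree_eq_of_degree_eq_some h2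
    have := hp.two_le
    omega
  have hPr : (PhiAt R.Φ (tq k p)).eval r = 0 := by
    rcases hr with rfl | ⟨b, hb0, hb, rfl⟩
    · exact R.eval_tq_sq (RingHom.id k)
    · rw [R.roots, Polynomial.eval_mul, Polynomial.eval_prod]
      apply mul_eq_zero_of_right
      apply Finset.prod_eq_zero (Finset.mem_range.mpr hb)
      show Polynomial.eval (rho ζ b) (X - Polynomial.C (rho ζ b)) = 0
      simp
  have := eval_eq_zero_of_mul hP hc00 hcdeg (hr.ne_t k hp ζ hζ) hPt hPr hmt
  rw [Polynomial.aeval_def, Polynomial.eval₂_eq_eval_map]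
  exact this

end Conj

/-! ### (CB2) the embeddings -/

section Embeddings

variable (k : Type) [Field k] [IsAlgClosed k] {p : ℕ} (hp : p.Prime) (hpk : (p : k) ≠ 0)
  (hD : ModEqStatement) (ζ : kˣ) (hζ : IsPrimitiveRoot ζ p)

include hp hpk hD hζ in
/-- **(CB2)**, for the S28 model `LL k (p * p)` of `F_{p²}`. -/
theorem exists_embedding_LL {r : LaurentSeries k} (hr : IsOtherRoot k p ζ r) :
    ∃ σ : ↥(LL k (p * p)) →ₐ[k] LaurentSeries k,
      (∀ y : ↥(LL k (p * p)), y.1 ∈ LL k p → σ y = y.1) ∧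
      (∀ y : ↥(LL k (p * p)), y.1 = tq k (p * p) → σ y = r) := by
  obtain ⟨σ0, h1, h2⟩ := exists_algHom_sup_simple (LL k p) (isIntegral_tpp k hp hpk hD)
    (aeval_minpoly_eq_zero k hp hpk hD ζ hζ hr)
  let e := IntermediateField.equivOfEq (LL_prime_sq k hp)
  refine ⟨σ0.comp e.toAlgHom, fun y hy => ?_, fun y hy => ?_⟩
  · exact h1 (e y) hy
  · exact h2 (e y) hy

include hp hpk hD hζ in
/-- **(CB2)**, for the Prelude field `modularFunctionFieldFullC k N`, `N = p²`. -/
theorem exists_embedding (N : ℕ) [NeZero N] (hN : N = p * p) {r : LaurentSeries k}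
    (hr : IsOtherRoot k p ζ r) :
    ∃ σ : ↥(modularFunctionFieldFullC k N) →ₐ[k] LaurentSeries k,
      (∀ y : ↥(modularFunctionFieldFullC k N), y.1 ∈ LL k p → σ y = y.1) ∧
      (∀ y : ↥(modularFunctionFieldFullC k N), y.1 = tq k (p * p) → σ y = r) := by
  subst hN
  obtain ⟨σ0, h1, h2⟩ := exists_embedding_LL k hp hpk hD ζ hζ hr
  let e := IntermediateField.equivOfEq (LL_eq k (p * p)).symm
  refine ⟨σ0.comp e.toAlgHom, fun y hy => ?_, fun y hy => ?_⟩
  · exact h1 (e y) hy
  · exact h2 (e y) hy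

end Embeddings

/-! ### (CB3) separation -/

section Separation

variable (k : Type) [Field k] {p : ℕ} (ζ : kˣ)

theorem order_nonneg_of_coeff {x : LaurentSeries k} (h : ∀ n : ℤ, n < 0 → x.coeff n = 0) :
    0 ≤ x.order := by
  by_contra hlt
  push Not at hlt
  have hx : x ≠ 0 := by
    rintro rfl
    simp at hlt
  exact hx (HahnSeries.coeff_order_eq_zero.mp (h _ hlt))

/-- the separating function `t_{p²} - ζ^{-b} t` -/
def sepFun (p : ℕ) (ζ : kˣ) (b : ℕ) : LaurentSeries k :=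
  tq k (p * p) - algebraMap k (LaurentSeries k) (cc ζ b) * jqModC k

theorem sepFun_mem (b : ℕ) : sepFun k p ζ b ∈ LL k (p * p) := by
  refine sub_mem (tq_mem_LL dvd_rfl) (mul_mem (IntermediateField.algebraMap_mem _ _) ?_)
  exact Kt_le_LL k (p * p) (mem_adjoin_simple_self k _)

theorem Prelude_algebraMap_single (c : k) :
    algebraMap k (LaurentSeries k) c = HahnSeries.single 0 c :=
  ModularCurve.algebraMap_laurentSeries_eq_single k c

theorem coeff_smul_t (c : k) (n : ℤ) :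
    (algebraMap k (LaurentSeries k) c * jqModC k).coeff n = c * (jqModC k).coeff n := by
  rw [Prelude_algebraMap_single, HahnSeries.coeff_single_zero_mul]

/-- under `t_{p²} ↦ t(ζ^b q)` the separating function is regular at `q = 0` -/
theorem order_sep_nonneg (b : ℕ) :
    0 ≤ (rho ζ b - algebraMap k (LaurentSeries k) (cc ζ b) * jqModC k).order := by
  apply order_nonneg_of_coeff
  intro n hn
  rw [HahnSeries.coeff_sub, coeff_smul_t]
  rcases lt_or_eq_of_le (show n ≤ -1 by omega) with h | rfl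
  · rw [(leadsAt_rho ζ b).1 n (by simpa using h), (leadsAt_jqModC k).1 n (by simpa using h)]
    simp
  · have h1 : (rho ζ b).coeff (-1) = cc ζ b := by simpa using (leadsAt_rho ζ b).2
    have h2 : (jqModC k).coeff (-1) = 1 := by simpa using (leadsAt_jqModC k).2
    rw [h1, h2]
    simp

/-- under `t_{p²} ↦ t(ζ^{b'} q)`, `b' ≠ b`, the separating function has a pole at `q = 0` -/
theorem order_sep_neg_of_ne (hζ : IsPrimitiveRoot ζ p) {b b' : ℕ} (hb : b < p) (hb' : b' < p)
    (hne : b' ≠ b) :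
    (rho ζ b' - algebraMap k (LaurentSeries k) (cc ζ b) * jqModC k).order < 0 := by
  haveI : NeZero p := ⟨by omega⟩
  have hc : (rho ζ b' - algebraMap k (LaurentSeries k) (cc ζ b) * jqModC k).coeff (-1) ≠ 0 := by
    have h1 : (rho ζ b').coeff (-1) = cc ζ b' := by simpa using (leadsAt_rho ζ b').2
    have h2 : (jqModC k).coeff (-1) = 1 := by simpa using (leadsAt_jqModC k).2
    rw [HahnSeries.coeff_sub, coeff_smul_t, h1, h2, mul_one, sub_ne_zero]
    intro h
    exact hne (cc_inj p ζ hζ hb' hb h)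
  have := HahnSeries.order_le_of_coeff_ne_zero hc
  omega

/-- under `t_{p²} ↦ t(q^{p²})` the separating function has a pole at `q = 0` -/
theorem order_sep_neg_tpp (hp : 2 ≤ p) (b : ℕ) :
    (tq k (p * p) - algebraMap k (LaurentSeries k) (cc ζ b) * jqModC k).order < 0 := by
  have hpp : p * p ≠ 0 := by positivity
  have hc : (tq k (p * p) - algebraMap k (LaurentSeries k) (cc ζ b) * jqModC k).coeff
      (-((p * p : ℕ) : ℤ)) ≠ 0 := by
    have h1 : (tq k (p * p)).coeff (-((p * p : ℕ) : ℤ)) = 1 := (leadsAt_tq k (p * p) hpp).2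
    have h2 : (jqModC k).coeff (-((p * p : ℕ) : ℤ)) = 0 := by
      apply (leadsAt_jqModC k).1
      have : (4 : ℤ) ≤ ((p * p : ℕ) : ℤ) := by
        have : 4 ≤ p * p := by nlinarith
        exact_mod_cast this
      push_cast at this ⊢
      omega
    rw [HahnSeries.coeff_sub, coeff_smul_t, h1, h2, mul_zero, sub_zero]
    exact one_ne_zero
  have h3 := HahnSeries.order_le_of_coeff_ne_zero hc
  have : (0 : ℤ) < ((p * p : ℕ) : ℤ) := by
    have : 0 < p * p := by positivity
    exact_mod_cast this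
  omega

end Separation

end Fermat.Agent.S18.CuspBase97
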