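/-
S18 project, [CUSP-LITE] (C-BASE), helper97: the Prelude-place form.

For `k` algebraically closed, `p` prime, `(p : k) ≠ 0`, `N = p²`, `F = modularFunctionFieldFullC k N`:
* (CB4) `exists_places` : `p` pairwise distinct places `P_i : Place k F` with `P_i.ord t = -1`;
* `card_poles_ge` : if `t` is a separating variable of `F/k` (helper30 `SepFF`), the set of poles of
  `t` has at least `p + 1` elements (`c̄_{p²} ≥ p + 1`: `c̄_4 ≥ 3`, `c̄_9 ≥ 4`).
-/
import Fermat.Agent.S18.CuspBase97.Main
import Fermat.Agent.S18.EmbPlace78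
import Fermat.Agent.S18.FFPlaces30

set_option autoImplicit false
set_option linter.unusedSectionVars false
set_option linter.style.haveILetI false

noncomputable section

namespace Fermat.Agent.S18.CuspBase97

open HahnSeries ModularCurve IntermediateField AlgebraicCurve
open Fermat.Agent.S28 Fermat.Agent.S28.KEY0 Fermat.Agent.S18.EmbPlace78

section OrderT

variable (k : Type) [Field k]

theorem order_jqModC : (jqModC k).order = -1 := by
  have h1 : (jqModC k).coeff (-1) ≠ 0 := by
    rw [coeff_jqModC_neg_one]; exact one_ne_zero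
  have h2 := HahnSeries.order_le_of_coeff_ne_zero h1
  have h0 : jqModC k ≠ 0 := by
    rintro h
    rw [h] at h1
    simp at h1
  by_contra hne
  have hlt : (jqModC k).order < -1 := lt_of_le_of_ne h2 hne
  exact h0 (HahnSeries.coeff_order_eq_zero.mp (coeff_jqModC_of_lt k hlt))

end OrderT

section Places

variable (k : Type) [Field k] [IsAlgClosed k] {p : ℕ} (hp : p.Prime) (hpk : (p : k) ≠ 0)
  (hD : ModEqStatement) (N : ℕ) [NeZero N] (hN : N = p * p)

/-- `t` as an element of `F_N`. -/
def tF : ↥(modularFunctionFieldFullC k N) := ⟨jqModC k, jqModC_mem_full k N⟩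

/-- the `b`-th root: `t(q^{p²})` for `b = 0`, `t(ζ^b q)` for `b ≥ 1`. -/
def rootOf (p : ℕ) (ζ : kˣ) (b : ℕ) : LaurentSeries k := if b = 0 then tq k (p * p) else rho ζ b

theorem isOtherRoot_rootOf (ζ : kˣ) {b : ℕ} (hb : b < p) : IsOtherRoot k p ζ (rootOf k p ζ b) := by
  unfold rootOf
  split_ifs with h0
  · exact Or.inl rfl
  · exact Or.inr ⟨b, Nat.pos_of_ne_zero h0, hb, rfl⟩

include hp hpk hD hN in
/-- **(CB4)** `p` pairwise distinct places of `F_{p²}` over `t = ∞`, each unramified over `k(t)`. -/
theorem exists_places :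
    ∃ P : Fin p → Place k ↥(modularFunctionFieldFullC k N),
      Function.Injective P ∧ ∀ i, (P i).ord (tF k N) = -1 := by
  haveI : NeZero p := ⟨hp.ne_zero⟩
  obtain ⟨ζ, hζ, -⟩ := KeyLower.exists_zeta k p hp.pos hpk
  -- the embeddings
  have hex : ∀ i : Fin p, ∃ σ : ↥(modularFunctionFieldFullC k N) →ₐ[k] LaurentSeries k,
      (∀ y : ↥(modularFunctionFieldFullC k N), y.1 ∈ LL k p → σ y = y.1) ∧
      (∀ y : ↥(modularFunctionFieldFullC k N), y.1 = tq k (p * p) → σ y = rootOf k p ζ i) :=
    fun i => exists_embedding k hp hpk hD ζ hζ N hN (isOtherRoot_rootOf k ζ i.2)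
  choose σ hσ1 hσ2 using hex
  have ht_mem : jqModC k ∈ LL k p := Kt_le_LL k p (mem_adjoin_simple_self k _)
  have hσt : ∀ i, σ i (tF k N) = jqModC k := fun i => hσ1 i (tF k N) ht_mem
  have hneg : ∀ i, ∃ x : ↥(modularFunctionFieldFullC k N), (σ i x).order < 0 := fun i =>
    ⟨tF k N, by rw [hσt, order_jqModC]; norm_num⟩
  refine ⟨fun i => embPlace (σ i) (hneg i), ?_, ?_⟩
  · -- injectivity, by the separating functions
    have hFeq : modularFunctionFieldFullC k N = LL k (p * p) := by
      subst hN; exact (LL_eq k (p * p)).symm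
    have htpp_mem : tq k (p * p) ∈ modularFunctionFieldFullC k N := by
      rw [hFeq]; exact tq_mem_LL dvd_rfl
    have hsep_mem : ∀ b, sepFun k p ζ b ∈ modularFunctionFieldFullC k N := fun b => by
      rw [hFeq]; exact sepFun_mem k ζ b
    -- the value of `σ i` on the separating function
    have hσsep : ∀ (i : Fin p) (b : ℕ), σ i ⟨sepFun k p ζ b, hsep_mem b⟩ =
        rootOf k p ζ i - algebraMap k (LaurentSeries k) (cc ζ b) * jqModC k := by
      intro i b
      have h1 : (⟨sepFun k p ζ b, hsep_mem b⟩ : ↥(modularFunctionFieldFullC k N)) =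
          ⟨tq k (p * p), htpp_mem⟩ -
            algebraMap k ↥(modularFunctionFieldFullC k N) (cc ζ b) * tF k N := rfl
      rw [h1, map_sub, map_mul, AlgHom.commutes, hσt, hσ2 i ⟨tq k (p * p), htpp_mem⟩ rfl]
    -- key: for `1 ≤ c`, the function `f_c` lies in the valuation ring of `P_j` iff `j = c`
    have key : ∀ (c j : Fin p), 0 < (c : ℕ) →
        (0 ≤ (σ j ⟨sepFun k p ζ c, hsep_mem c⟩).order ↔ j = c) := by
      intro c j hc
      rw [hσsep]
      constructor
      · intro h
        by_contra hjc
        have hjc' : (j : ℕ) ≠ (c : ℕ) := fun h' => hjc (Fin.ext h')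
        have hlt : (rootOf k p ζ j - algebraMap k (LaurentSeries k) (cc ζ c) * jqModC k).order
            < 0 := by
          unfold rootOf
          split_ifs with h0
          · exact order_sep_neg_tpp k ζ hp.two_le c
          · exact order_sep_neg_of_ne k ζ hζ c.2 j.2 hjc'
        omega
      · rintro rfl
        unfold rootOf
        rw [if_neg hc.ne']
        exact order_sep_nonneg k ζ j
    intro i j hij
    by_contra hne
    -- one of `i`, `j` is positive
    have hmem : ∀ (c a : Fin p), 0 < (c : ℕ) → embPlace (σ a) (hneg a) = embPlace (σ c) (hneg c) →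
        a = c := by
      intro c a hc heq
      have h1 : (⟨sepFun k p ζ c, hsep_mem c⟩ : ↥(modularFunctionFieldFullC k N)) ∈
          (embPlace (σ c) (hneg c)).toValuationSubring := by
        rw [mem_embPlace_iff]; exact (key c c hc).mpr rfl
      rw [← heq, mem_embPlace_iff] at h1
      exact (key c a hc).mp h1
    rcases Nat.eq_zero_or_pos (i : ℕ) with hi | hi
    · rcases Nat.eq_zero_or_pos (j : ℕ) with hj | hj
      · exact hne (Fin.ext (hi.trans hj.symm))
      · exact hne (hmem j i hj hij)
    · exact hne (hmem i j hi hij.symm).symm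
  · intro i
    obtain ⟨g, hg, hgf⟩ := exists_order_eq_mul_ord (σ i) (hneg i)
    have h1 := hgf (tF k N)
    rw [hσt, order_jqModC] at h1
    -- `-1 = g * ord`, `g > 0`
    have hdvd : g ∣ 1 := ⟨-(embPlace (σ i) (hneg i)).ord (tF k N), by linarith⟩
    have hg1 : g = 1 := Int.eq_one_of_dvd_one hg.le hdvd
    rw [hg1, one_mul] at h1
    exact h1.symm

end Places

/-! ### the count `c̄_{p²} ≥ p + 1` -/

section Count

open Fermat.Agent.S18.FFPlaces30

variable (k : Type) [Field k] [IsAlgClosed k] {p : ℕ} (hp : p.Prime) (hpk : (p : k) ≠ 0)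
  (hD : ModEqStatement) (N : ℕ) [NeZero N] (hN : N = p * p)

include hp hpk hD hN in
/-- `p (p + 1) ≤ [F_{p²} : k(t)]`, in `finrank` form over the subfield `k(t)` of `F_{p²}`. -/
theorem finrank_ge [FiniteDimensional k⟮tF k N⟯ ↥(modularFunctionFieldFullC k N)] :
    p * (p + 1) ≤ Module.finrank k⟮tF k N⟯ ↥(modularFunctionFieldFullC k N) := by
  set F := modularFunctionFieldFullC k N with hF
  have hFeq : F = LL k (p * p) := by
    subst hN; exact (LL_eq k (p * p)).symm
  have h1 := relrank_map_map (k⟮tF k N⟯) (⊤ : IntermediateField k ↥F) F.val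
  have h2 : (k⟮tF k N⟯).map F.val = k⟮jqModC k⟯ := by
    rw [adjoin_map, Set.image_singleton]
    rfl
  have h3 : (⊤ : IntermediateField k ↥F).map F.val = F := by
    rw [← AlgHom.fieldRange_eq_map, IntermediateField.fieldRange_val]
  rw [h2, h3, relrank_top_right, hFeq] at h1
  have h4 := le_relrank_LL_prime_sq k hp hpk hD
  rw [h1, ← Module.finrank_eq_rank] at h4
  exact_mod_cast h4

include hp hpk hD hN in
/-- **`c̄_{p²} ≥ p + 1`**: if `t` is a separating variable of `F_{p²}/k`, then `t` has at least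
`p + 1` poles. -/
theorem card_poles_ge (hsep : SepFF k (tF k N)) :
    ∃ s : Finset (Place k ↥(modularFunctionFieldFullC k N)),
      (∀ v : Place k ↥(modularFunctionFieldFullC k N), v ∈ s ↔ v.ord (tF k N) < 0) ∧
      p + 1 ≤ s.card := by
  classical
  obtain ⟨s, hs, hsum⟩ := poles_formula hsep
  refine ⟨s, hs, ?_⟩
  obtain ⟨P, hPinj, hPord⟩ := exists_places k hp hpk hD N hN
  haveI := hsep.finite
  have hfin := finrank_ge k hp hpk hD N hN
  by_contra hlt
  push Not at hlt
  set T : Finset (Place k ↥(modularFunctionFieldFullC k N)) := Finset.univ.image P with hT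
  have hTcard : T.card = p := by
    rw [hT, Finset.card_image_of_injective _ hPinj, Finset.card_univ, Fintype.card_fin]
  have hTs : T ⊆ s := by
    intro v hv
    obtain ⟨i, -, rfl⟩ := Finset.mem_image.mp hv
    rw [hs, hPord]; norm_num
  have hTeq : T = s := Finset.eq_of_subset_of_card_le hTs (by rw [hTcard]; omega)
  have hsumT : ∑ v ∈ T, -v.ord (tF k N) = (p : ℤ) := by
    rw [hT, Finset.sum_image (fun a _ b _ h => hPinj h)]
    simp [hPord]
  rw [← hTeq, hsumT] at hsum
  have h5 : (p : ℤ) = (Module.finrank k⟮tF k N⟯ ↥(modularFunctionFieldFullC k N) : ℤ) := hsum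
  have h6 : p = Module.finrank k⟮tF k N⟯ ↥(modularFunctionFieldFullC k N) := by exact_mod_cast h5
  have := hp.two_le
  nlinarith

end Count

end Fermat.Agent.S18.CuspBase97
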