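/-
S18 project, [CUSP-LITE] (C-BASE), helper97: the unconditional statements (S28 `modEqStatement`
plugged in).
-/
import Fermat.Agent.S28.ModEq
import Fermat.Agent.S18.CuspBase97.Places

set_option autoImplicit false

noncomputable section

namespace Fermat.Agent.S18.CuspBase97

open HahnSeries ModularCurve IntermediateField AlgebraicCurve
open Fermat.Agent.S28 Fermat.Agent.S28.KEY0 Fermat.Agent.S18.FFPlaces30

variable (k : Type) [Field k] [IsAlgClosed k] {p : ℕ} (hp : p.Prime) (hpk : (p : k) ≠ 0)
  (N : ℕ) [NeZero N] (hN : N = p * p)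

include hp hpk hN in
/-- **(CB4)** `p` pairwise distinct places of `F_{p²}` over `t = ∞` with `ord t = -1`. -/
theorem exists_places_final :
    ∃ P : Fin p → Place k ↥(modularFunctionFieldFullC k N),
      Function.Injective P ∧ ∀ i, (P i).ord (tF k N) = -1 :=
  exists_places k hp hpk modEqStatement N hN

include hp hpk hN in
/-- **(C-BASE)** `c̄_{p²} ≥ p + 1`. -/
theorem card_poles_ge_final (hsep : SepFF k (tF k N)) :
    ∃ s : Finset (Place k ↥(modularFunctionFieldFullC k N)),
      (∀ v : Place k ↥(modularFunctionFieldFullC k N), v ∈ s ↔ v.ord (tF k N) < 0) ∧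
      p + 1 ≤ s.card :=
  card_poles_ge k hp hpk modEqStatement N hN hsep

/-- level `4`, `char k ≠ 2`: at least `3` places over `t = ∞`. -/
theorem card_poles_four (h2 : (2 : k) ≠ 0) (hsep : SepFF k (tF k 4)) :
    ∃ s : Finset (Place k ↥(modularFunctionFieldFullC k 4)),
      (∀ v : Place k ↥(modularFunctionFieldFullC k 4), v ∈ s ↔ v.ord (tF k 4) < 0) ∧
      3 ≤ s.card :=
  card_poles_ge_final k Nat.prime_two (by exact_mod_cast h2) 4 (by norm_num) hsep

/-- level `9`, `char k ≠ 3`: at least `4` places over `t = ∞`. -/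
theorem card_poles_nine (h3 : (3 : k) ≠ 0) (hsep : SepFF k (tF k 9)) :
    ∃ s : Finset (Place k ↥(modularFunctionFieldFullC k 9)),
      (∀ v : Place k ↥(modularFunctionFieldFullC k 9), v ∈ s ↔ v.ord (tF k 9) < 0) ∧
      4 ≤ s.card :=
  card_poles_ge_final k Nat.prime_three (by exact_mod_cast h3) 9 (by norm_num) hsep

end Fermat.Agent.S18.CuspBase97
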